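import Fermat.Agent.LevelOne.Separation

/-!
# Primitive level one forms and division
-/

set_option autoImplicit false

open UpperHalfPlane ModularForm ModularFormClass MatrixGroups EisensteinSeries Filter Derivative
open scoped Manifold MatrixGroups ModularForm Topology

namespace Fermat.Agent.LevelOne

/-- division of holomorphic functions on `ℍ` by a function with simple zeros. -/
theorem exists_mul_eq {p g : ℍ → ℂ} (hp : MDiff p) (hg : MDiff g)
    (h : ∀ z : ℍ, p z = 0 → g z = 0 ∧ deriv (p ∘ ofComplex) z ≠ 0) :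
    ∃ q : ℍ → ℂ, MDiff q ∧ g = p * q := by
  classical
  let q : ℍ → ℂ := fun z ↦ if p z = 0 then deriv (g ∘ ofComplex) z / deriv (p ∘ ofComplex) z
    else g z / p z
  refine ⟨q, ?_, ?_⟩
  · intro z
    rw [mdifferentiableAt_iff]
    have hU : upperHalfPlaneSet ∈ 𝓝 (z : ℂ) := isOpen_upperHalfPlaneSet.mem_nhds z.im_pos
    have hp' := UpperHalfPlane.mdifferentiable_iff.mp hp
    have hg' := UpperHalfPlane.mdifferentiable_iff.mp hg
    by_cases hz : p z = 0
    · obtain ⟨hgz, hdz⟩ := h z hz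
      have h1 : DifferentiableAt ℂ (dslope (p ∘ ofComplex) z) z :=
        ((Complex.differentiableOn_dslope hU).mpr hp').differentiableAt hU
      have h2 : DifferentiableAt ℂ (dslope (g ∘ ofComplex) z) z :=
        ((Complex.differentiableOn_dslope hU).mpr hg').differentiableAt hU
      have h3 : dslope (p ∘ ofComplex) z z ≠ 0 := by rwa [dslope_same]
      refine (h2.div h1 h3).congr_of_eventuallyEq ?_
      filter_upwards [hU, h1.continuousAt.eventually_ne h3] with w hw hw2
      simp only [Function.comp_apply, Pi.div_apply]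
      by_cases hwz : w = z
      · subst hwz
        rw [dslope_same, dslope_same, ofComplex_apply]
        simp only [q]
        rw [if_pos hz]
      · rw [dslope_of_ne _ hwz, dslope_of_ne _ hwz] at *
        rw [slope_def_field] at hw2
        rw [slope_def_field, slope_def_field]
        simp only [Function.comp_apply, ofComplex_apply, hz, hgz, sub_zero] at hw2 ⊢
        have hpw : p (ofComplex w) ≠ 0 := by
          intro h0; rw [h0, zero_div] at hw2; exact hw2 rfl
        simp only [q]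
        rw [if_neg hpw]
        have : w - z ≠ 0 := sub_ne_zero.mpr hwz
        field_simp
    · have h1 : DifferentiableAt ℂ (p ∘ ofComplex) z := hp'.differentiableAt hU
      have h2 : DifferentiableAt ℂ (g ∘ ofComplex) z := hg'.differentiableAt hU
      have h3 : (p ∘ ofComplex) z ≠ 0 := by simpa using hz
      refine (h2.div h1 h3).congr_of_eventuallyEq ?_
      filter_upwards [h1.continuousAt.eventually_ne h3] with w hw2
      simp only [Function.comp_apply, Pi.div_apply] at hw2 ⊢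
      simp only [q]
      rw [if_neg hw2]
  · ext z
    simp only [Pi.mul_apply, q]
    split_ifs with hz
    · rw [(h z hz).1, hz, zero_mul]
    · field_simp

/-- a level one form with simple zeros exactly on the orbit of `τ₀`, and nonzero at infinity. -/
structure IsPrimitiveAt (w : ℤ) (p : ℍ → ℂ) (τ₀ : ℍ) : Prop where
  levelOne : IsLevelOne w p
  zero : p τ₀ = 0
  orbit : ∀ z, p z = 0 → ∃ γ : SL(2, ℤ), z = γ • τ₀
  simple : ∀ z : ℍ, p z = 0 → deriv (p ∘ ofComplex) z ≠ 0
  tendsto : Tendsto p atImInfty (𝓝 1)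

theorem deriv_ne_zero_of_serre {k : ℂ} {f : ℍ → ℂ} {z : ℍ} (hz : f z = 0)
    (h : serreDerivative k f z ≠ 0) : deriv (f ∘ ofComplex) z ≠ 0 := by
  rw [serreDerivative_apply, hz, mul_zero, sub_zero, normalizedDerivOfComplex] at h
  exact right_ne_zero_of_mul h

theorem E₆_ne_zero_of_E₄ {z : ℍ} (h : E₄ z = 0) : E₆ z ≠ 0 := by
  intro h6
  have := discriminant_eq_E₄_cube_sub_E₆_sq z
  rw [h, h6] at this
  exact discriminant_ne_zero z (by rw [this]; norm_num)

theorem E₄_ne_zero_of_E₆ {z : ℍ} (h : E₆ z = 0) : E₄ z ≠ 0 :=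
  fun h' ↦ E₆_ne_zero_of_E₄ h' h

theorem isPrimitiveAt_E₄ {τ₀ : ℍ} (h : E₄ τ₀ = 0) : IsPrimitiveAt 4 E₄ τ₀ where
  levelOne := isLevelOne_E₄
  zero := h
  orbit z hz := exists_smul_of_E₄_eq_zero hz h
  simple z hz := by
    refine deriv_ne_zero_of_serre (k := (4 : ℤ)) hz ?_
    rw [serre_E₄]
    simpa using E₆_ne_zero_of_E₄ hz
  tendsto := tendsto_E₄

theorem isPrimitiveAt_E₆ {τ₀ : ℍ} (h : E₆ τ₀ = 0) : IsPrimitiveAt 6 E₆ τ₀ where
  levelOne := isLevelOne_E₆
  zero := h
  orbit z hz := exists_smul_of_E₆_eq_zero hz h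
  simple z hz := by
    refine deriv_ne_zero_of_serre (k := (6 : ℤ)) hz ?_
    rw [serre_E₆]
    simpa using E₄_ne_zero_of_E₆ hz
  tendsto := tendsto_E₆

/-- the weight 12 form vanishing at `τ₀` -/
noncomputable def P12 (τ₀ : ℍ) : ℍ → ℂ :=
  (E₄ : ℍ → ℂ) ^ 3 - (E₄ τ₀ ^ 3 / discriminant τ₀) • discriminant

theorem isLevelOne_P12 (τ₀ : ℍ) : IsLevelOne 12 (P12 τ₀) :=
  ((isLevelOne_E₄.pow 3).congr_weight (by norm_num)).sub (isLevelOne_Δ.smul _)

theorem tendsto_P12 (τ₀ : ℍ) : Tendsto (P12 τ₀) atImInfty (𝓝 1) := by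
  have := (tendsto_E₄.pow 3).sub (tendsto_Δ.const_smul (E₄ τ₀ ^ 3 / discriminant τ₀))
  rw [one_pow, smul_zero, sub_zero] at this
  exact this

theorem serre_weight12 {f : ℍ → ℂ} (hf : IsLevelOne 12 f) (h1 : Tendsto f atImInfty (𝓝 1)) :
    serreDerivative (12 : ℤ) f = - ((E₄ : ℍ → ℂ) ^ 2 * E₆) := by
  obtain ⟨h2, h3⟩ := hf.serre
  have h4 := h2.add (((isLevelOne_E₄.pow 2).mul isLevelOne_E₆).congr_weight
    (by norm_num : ((2 : ℕ) : ℤ) * 4 + 6 = 12 + 2))
  have h5 : serreDerivative (12 : ℤ) f + (E₄ : ℍ → ℂ) ^ 2 * E₆ = 0 := by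
    refine h4.eq_zero_of_tendsto (Or.inr (by norm_num)) ?_
    have h6 := h3.add ((tendsto_E₄.pow 2).mul tendsto_E₆)
    have h7 : valueAtInfty f = 1 := tendsto_nhds_unique hf.tendsto h1
    rw [h7] at h6
    have h8 : (0 : ℂ) = -(((12 : ℤ) : ℂ) * 12⁻¹) * 1 + 1 ^ 2 * 1 := by
      push_cast; norm_num
    rw [h8]
    exact h6
  exact eq_neg_of_add_eq_zero_left h5

theorem isPrimitiveAt_P12 {τ₀ : ℍ} (h4 : E₄ τ₀ ≠ 0) (h6 : E₆ τ₀ ≠ 0) :
    IsPrimitiveAt 12 (P12 τ₀) τ₀ where
  levelOne := isLevelOne_P12 τ₀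
  zero := by
    simp only [P12, Pi.sub_apply, Pi.pow_apply, Pi.smul_apply, smul_eq_mul]
    rw [div_mul_cancel₀ _ (discriminant_ne_zero τ₀), sub_self]
  orbit z hz := by
    simp only [P12, Pi.sub_apply, Pi.pow_apply, Pi.smul_apply, smul_eq_mul] at hz
    refine exists_smul_of_j_eq ?_
    have := discriminant_ne_zero τ₀
    field_simp at hz
    linear_combination hz
  simple z hz := by
    refine deriv_ne_zero_of_serre (k := (12 : ℤ)) hz ?_
    rw [serre_weight12 (isLevelOne_P12 τ₀) (tendsto_P12 τ₀)]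
    simp only [P12, Pi.sub_apply, Pi.pow_apply, Pi.smul_apply, smul_eq_mul] at hz
    simp only [Pi.neg_apply, Pi.mul_apply, Pi.pow_apply, ne_eq, neg_eq_zero, mul_eq_zero,
      not_or]
    have d0 := discriminant_ne_zero τ₀
    have dz := discriminant_ne_zero z
    have hj : E₄ z ^ 3 = E₄ τ₀ ^ 3 / discriminant τ₀ * discriminant z := by
      linear_combination hz
    constructor
    · intro h0
      have h00 : E₄ z = 0 := pow_eq_zero_iff (by norm_num) |>.mp h0
      rw [h00, zero_pow (by norm_num)] at hj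
      exact (mul_ne_zero (div_ne_zero (pow_ne_zero 3 h4) d0) dz) hj.symm
    · intro h0
      have e1 := discriminant_eq_E₄_cube_sub_E₆_sq z
      have e2 := discriminant_eq_E₄_cube_sub_E₆_sq τ₀
      rw [h0] at e1
      have a1 : E₄ z ^ 3 = 1728 * discriminant z := by rw [e1]; ring
      rw [a1] at hj
      have a2 : E₄ τ₀ ^ 3 = 1728 * discriminant τ₀ := by
        field_simp at hj
        linear_combination -hj
      rw [a2] at e2
      have : E₆ τ₀ ^ 2 = 0 := by linear_combination 1728 * e2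
      exact h6 (pow_eq_zero_iff (by norm_num) |>.mp this)
  tendsto := tendsto_P12 τ₀

end Fermat.Agent.LevelOne
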