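import Mathlib

set_option autoImplicit false

open UpperHalfPlane ModularForm ModularFormClass MatrixGroups EisensteinSeries Filter
open scoped Manifold MatrixGroups ModularForm Topology

namespace Fermat.Agent.LevelOne

/-- unbundled level one modular forms -/
structure IsLevelOne (k : ℤ) (f : ℍ → ℂ) : Prop where
  mdiff : MDiff f
  bdd : IsBoundedAtImInfty f
  slash : ∀ γ : SL(2, ℤ), f ∣[k] γ = f

theorem isLevelOne_coe {k : ℤ} (f : ModularForm 𝒮ℒ k) : IsLevelOne k f where
  mdiff := f.holo'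
  bdd := ModularFormClass.bdd_at_infty f
  slash γ := f.slash_action_eq' _ ⟨γ, rfl⟩

/-- bundle -/
def IsLevelOne.toModularForm {k : ℤ} {f : ℍ → ℂ} (hf : IsLevelOne k f) : ModularForm 𝒮ℒ k where
  toFun := f
  slash_action_eq' := fun _ ⟨γ, hγ⟩ ↦ hγ ▸ hf.slash γ
  holo' := hf.mdiff
  bdd_at_cusps' {c} hc := by
    rw [Subgroup.IsArithmetic.isCusp_iff_isCusp_SL2Z] at hc
    rw [OnePoint.isBoundedAt_iff_forall_SL2Z hc]
    intro γ _
    rw [hf.slash γ]
    exact hf.bdd

@[simp] theorem IsLevelOne.coe_toModularForm {k : ℤ} {f : ℍ → ℂ} (hf : IsLevelOne k f) :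
    ⇑hf.toModularForm = f := rfl

theorem IsLevelOne.add {k : ℤ} {f g : ℍ → ℂ} (hf : IsLevelOne k f) (hg : IsLevelOne k g) :
    IsLevelOne k (f + g) := by
  simpa using isLevelOne_coe (hf.toModularForm + hg.toModularForm)

theorem IsLevelOne.sub {k : ℤ} {f g : ℍ → ℂ} (hf : IsLevelOne k f) (hg : IsLevelOne k g) :
    IsLevelOne k (f - g) := by
  simpa using isLevelOne_coe (hf.toModularForm - hg.toModularForm)

theorem IsLevelOne.smul {k : ℤ} {f : ℍ → ℂ} (c : ℂ) (hf : IsLevelOne k f) :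
    IsLevelOne k (c • f) := by
  simpa using isLevelOne_coe (c • hf.toModularForm)

theorem IsLevelOne.mul {k l : ℤ} {f g : ℍ → ℂ} (hf : IsLevelOne k f) (hg : IsLevelOne l g) :
    IsLevelOne (k + l) (f * g) := by
  simpa using isLevelOne_coe (hf.toModularForm.mul hg.toModularForm)

theorem IsLevelOne.pow {k : ℤ} {f : ℍ → ℂ} (hf : IsLevelOne k f) (n : ℕ) :
    IsLevelOne (n * k) (f ^ n) := by
  simpa using isLevelOne_coe (hf.toModularForm.pow n)

theorem isLevelOne_const (c : ℂ) : IsLevelOne 0 (Function.const ℍ c) := by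
  simpa using isLevelOne_coe (ModularForm.const c)

theorem isLevelOne_one : IsLevelOne 0 (1 : ℍ → ℂ) := isLevelOne_const 1

theorem isLevelOne_zero (k : ℤ) : IsLevelOne k (0 : ℍ → ℂ) := by
  simpa using isLevelOne_coe (0 : ModularForm 𝒮ℒ k)

theorem IsLevelOne.congr_weight {k l : ℤ} {f : ℍ → ℂ} (hf : IsLevelOne k f) (h : k = l) :
    IsLevelOne l f := h ▸ hf

theorem isLevelOne_E₄ : IsLevelOne 4 E₄ := isLevelOne_coe _
theorem isLevelOne_E₆ : IsLevelOne 6 E₆ := isLevelOne_coe _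
theorem isLevelOne_Δ : IsLevelOne 12 discriminant :=
  isLevelOne_coe (CuspForm.discriminant : ModularForm 𝒮ℒ 12)

theorem IsLevelOne.eq_zero_of_neg {k : ℤ} {f : ℍ → ℂ} (hf : IsLevelOne k f) (hk : k < 0) :
    f = 0 :=
  ModularFormClass.levelOne_neg_weight_eq_zero hk hf.toModularForm

theorem IsLevelOne.eq_zero_of_odd {k : ℤ} {f : ℍ → ℂ} (hf : IsLevelOne k f) (hk : Odd k) :
    f = 0 := by
  have := ModularForm.levelOne_odd_weight_eq_zero hk hf.toModularForm
  rw [← hf.coe_toModularForm, this]; rfl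

theorem IsLevelOne.eq_zero_of_two {f : ℍ → ℂ} (hf : IsLevelOne 2 f) : f = 0 := by
  have := rank_zero_iff_forall_zero.mp ModularForm.levelOne_weight_two_rank_zero hf.toModularForm
  rw [← hf.coe_toModularForm, this]; rfl

theorem IsLevelOne.eq_const {f : ℍ → ℂ} (hf : IsLevelOne 0 f) : ∃ c, f = Function.const ℍ c :=
  ModularFormClass.levelOne_weight_zero_const hf.toModularForm

/-! ### behaviour at infinity -/

theorem tendsto_of_periodic {f : ℍ → ℂ} {h : ℝ} (hh : 0 < h)
    (hper : Function.Periodic (f ∘ ofComplex) h) (hf : MDiff f) (hb : IsBoundedAtImInfty f) :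
    Tendsto f atImInfty (𝓝 (valueAtInfty f)) := by
  have h1 := exp_decay_sub_atImInfty hh hper hf hb
  have h2 : Tendsto (fun τ : ℍ ↦ Real.exp (-2 * Real.pi * τ.im / h)) atImInfty (𝓝 0) := by
    refine Real.tendsto_exp_atBot.comp ?_
    have h3 : Tendsto (fun τ : ℍ ↦ τ.im) atImInfty atTop := tendsto_comap
    have : (fun τ : ℍ ↦ -2 * Real.pi * τ.im / h) = fun τ : ℍ ↦ (-2 * Real.pi / h) * τ.im := by
      ext τ; ring
    rw [this]
    exact h3.const_mul_atTop_of_neg (div_neg_of_neg_of_pos (by linarith [Real.pi_pos]) hh)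
  have h3 := h1.trans_tendsto h2
  simpa using h3.add_const (valueAtInfty f)

theorem slash_T_apply (k : ℤ) (f : ℍ → ℂ) (τ : ℍ) :
    (f ∣[k] ModularGroup.T) τ = f ((1 : ℝ) +ᵥ τ) := by
  rw [SL_slash_apply, modular_T_smul, ModularGroup.denom_apply]
  simp [ModularGroup.coe_T]

theorem ofComplex_add_one {w : ℂ} (hw : 0 < w.im) :
    ofComplex (w + 1) = (1 : ℝ) +ᵥ ofComplex w := by
  have h1 : 0 < (w + 1).im := by simpa using hw
  rw [ofComplex_apply_of_im_pos hw, ofComplex_apply_of_im_pos h1]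
  apply UpperHalfPlane.ext
  simp [add_comm]

theorem periodic_of_slash_T {k : ℤ} {f : ℍ → ℂ} (hf : f ∣[k] ModularGroup.T = f) :
    Function.Periodic (f ∘ ofComplex) 1 := by
  intro w
  by_cases hw : 0 < w.im
  · have h2 := congrFun hf (ofComplex w)
    rw [slash_T_apply, ← ofComplex_add_one hw] at h2
    exact h2
  · have h1 : ¬ 0 < (w + 1).im := by simpa using hw
    simp only [Function.comp_apply]
    rw [ofComplex_apply_of_im_nonpos (not_lt.mp hw), ofComplex_apply_of_im_nonpos (not_lt.mp h1)]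

theorem IsLevelOne.periodic {k : ℤ} {f : ℍ → ℂ} (hf : IsLevelOne k f) :
    Function.Periodic (f ∘ ofComplex) 1 := periodic_of_slash_T (hf.slash _)

theorem IsLevelOne.tendsto {k : ℤ} {f : ℍ → ℂ} (hf : IsLevelOne k f) :
    Tendsto f atImInfty (𝓝 (valueAtInfty f)) :=
  tendsto_of_periodic one_pos (by simpa using hf.periodic) hf.mdiff hf.bdd

theorem valueAtInfty_E {k : ℕ} (hk : 3 ≤ k) (hk2 : Even k) :
    valueAtInfty (E hk : ℍ → ℂ) = 1 := by
  have h := (isLevelOne_coe (E hk))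
  have hper : Function.Periodic ((E hk : ℍ → ℂ) ∘ ofComplex) (1 : ℝ) := by simpa using h.periodic
  rw [← EisensteinSeries.E_qExpansion_coeff_zero hk hk2]
  exact (qExpansion_coeff_zero one_pos
    (analyticAt_cuspFunction_zero one_pos hper h.mdiff h.bdd) hper).symm

theorem tendsto_E {k : ℕ} (hk : 3 ≤ k) (hk2 : Even k) : Tendsto (E hk : ℍ → ℂ) atImInfty (𝓝 1) := by
  have h := (isLevelOne_coe (E hk)).tendsto
  rwa [valueAtInfty_E hk hk2] at h

theorem tendsto_E₄ : Tendsto (E₄ : ℍ → ℂ) atImInfty (𝓝 1) := tendsto_E _ ⟨2, rfl⟩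
theorem tendsto_E₆ : Tendsto (E₆ : ℍ → ℂ) atImInfty (𝓝 1) := tendsto_E _ ⟨3, rfl⟩
theorem tendsto_Δ : Tendsto discriminant atImInfty (𝓝 0) := discriminant_isZeroAtImInfty

/-- a level one form vanishing at infinity is divisible by `Δ` -/
theorem IsLevelOne.exists_eq_Δ_mul {k : ℤ} {f : ℍ → ℂ} (hf : IsLevelOne k f)
    (h0 : Tendsto f atImInfty (𝓝 0)) : ∃ g, IsLevelOne (k - 12) g ∧ f = discriminant * g := by
  let F : CuspForm 𝒮ℒ k :=
    { hf.toModularForm with
      zero_at_cusps' := by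
        intro c hc
        rw [Subgroup.IsArithmetic.isCusp_iff_isCusp_SL2Z] at hc
        rw [OnePoint.isZeroAt_iff_forall_SL2Z hc]
        intro γ _
        show IsZeroAtImInfty (f ∣[k] γ)
        rw [hf.slash γ]
        exact h0 }
  refine ⟨_, isLevelOne_coe (CuspForm.discriminantEquiv F), ?_⟩
  exact (ModularForm.discriminant_mul_discriminantEquiv F).symm

/-- level one forms of weight `< 12` or `14` are determined by the value at infinity -/
theorem IsLevelOne.eq_zero_of_tendsto {k : ℤ} {f : ℍ → ℂ} (hf : IsLevelOne k f)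
    (hk : k < 12 ∨ k = 14) (h0 : Tendsto f atImInfty (𝓝 0)) : f = 0 := by
  obtain ⟨g, hg, rfl⟩ := hf.exists_eq_Δ_mul h0
  have : g = 0 := by
    rcases hk with hk | hk
    · exact hg.eq_zero_of_neg (by omega)
    · subst hk
      exact IsLevelOne.eq_zero_of_two (hg.congr_weight (by norm_num))
  rw [this, mul_zero]

end Fermat.Agent.LevelOne
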