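import Fermat.Agent.LevelOne.Basic

set_option autoImplicit false

open UpperHalfPlane ModularForm ModularFormClass MatrixGroups EisensteinSeries Filter Derivative
open scoped Manifold MatrixGroups ModularForm Topology

namespace Fermat.Agent.LevelOne

local notation "𝕢" => Function.Periodic.qParam

theorem normalizedDeriv_tendsto_zero {f : ℍ → ℂ}
    (hper : Function.Periodic (f ∘ ofComplex) (1 : ℝ)) (hf : MDiff f) (hb : IsBoundedAtImInfty f) :
    Tendsto (normalizedDerivOfComplex f) atImInfty (𝓝 0) := by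
  -- `D f = q C'(q)`
  have key : ∀ τ : ℍ, normalizedDerivOfComplex f τ =
      𝕢 1 τ * deriv (cuspFunction 1 f) (𝕢 1 τ) := by
    intro τ
    have h1 : f ∘ ofComplex =ᶠ[𝓝 (τ : ℂ)] cuspFunction 1 f ∘ 𝕢 1 := by
      filter_upwards [isOpen_upperHalfPlaneSet.mem_nhds τ.im_pos] with w hw
      have := eq_cuspFunction (h := 1) (f := f) ⟨w, hw⟩ one_ne_zero hper
      simp only [Function.comp_apply]
      rw [ofComplex_apply_of_im_pos hw, ← this]
    have hq : ‖𝕢 1 (τ : ℂ)‖ < 1 := by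
      simpa using (Function.Periodic.norm_qParam_lt_iff one_pos 0 (τ : ℂ)).mpr τ.im_pos
    have h2 : DifferentiableAt ℂ (cuspFunction 1 f) (𝕢 1 τ) :=
      differentiableAt_cuspFunction one_pos hper hf hb hq
    have h3 : HasDerivAt (𝕢 1) (2 * Real.pi * Complex.I * 𝕢 1 τ) (τ : ℂ) := by
      have h4 : HasDerivAt (fun z : ℂ ↦ 2 * Real.pi * Complex.I * z / (1 : ℝ))
          (2 * Real.pi * Complex.I) (τ : ℂ) := by
        simpa using (hasDerivAt_id (τ : ℂ)).const_mul (2 * Real.pi * Complex.I)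
      have h5 := h4.cexp
      have h6 : Complex.exp (2 * Real.pi * Complex.I * τ / (1 : ℝ)) * (2 * Real.pi * Complex.I) =
          2 * Real.pi * Complex.I * 𝕢 1 τ := by
        rw [mul_comm]; rfl
      rw [h6] at h5
      exact h5
    rw [normalizedDerivOfComplex, h1.deriv_eq, (h2.hasDerivAt.comp (τ : ℂ) h3).deriv]
    have : (Real.pi : ℂ) ≠ 0 := by exact_mod_cast Real.pi_ne_zero
    field_simp
  have hq0 : Tendsto (fun τ : ℍ ↦ 𝕢 1 (τ : ℂ)) atImInfty (𝓝 0) :=
    qParam_tendsto_atImInfty one_pos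
  have han : AnalyticAt ℂ (cuspFunction 1 f) 0 := analyticAt_cuspFunction_zero one_pos hper hf hb
  have h5 : Tendsto (fun τ : ℍ ↦ deriv (cuspFunction 1 f) (𝕢 1 (τ : ℂ))) atImInfty
      (𝓝 (deriv (cuspFunction 1 f) 0)) :=
    han.deriv.continuousAt.tendsto.comp hq0
  have h6 := hq0.mul h5
  rw [zero_mul] at h6
  exact h6.congr fun τ ↦ (key τ).symm

theorem tendsto_E2 : Tendsto E2 atImInfty (𝓝 1) := by
  have hper : Function.Periodic (E2 ∘ ofComplex) (1 : ℝ) := by
    have h1 : E2 ∣[(2 : ℤ)] ModularGroup.T = E2 := by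
      rw [E2_slash_action, D2_T, smul_zero, sub_zero]
    simpa using periodic_of_slash_T h1
  have h2 := tendsto_of_periodic one_pos hper E2_mdifferentiable isBoundedAtImInfty_E2
  have h3 : valueAtInfty E2 = 1 := by
    have han : AnalyticAt ℂ (cuspFunction 1 E2) 0 :=
      analyticAt_cuspFunction_zero one_pos hper E2_mdifferentiable isBoundedAtImInfty_E2
    have h5 := hasFPowerSeriesOnBall_cuspFunction (h := 1) (f := E2)
      (c := fun m : ℕ ↦ if m = 0 then (1 : ℂ) else -24 * (ArithmeticFunction.sigma 1 m : ℂ))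
      one_pos han
      (fun τ ↦ by
        have := hasSum_qExpansion_E2 (z := τ)
        simp only [Function.Periodic.qParam, Complex.ofReal_one, div_one] at this ⊢
        convert this using 1)
    rw [← cuspFunction_apply_zero one_pos han hper, ← h5.hasFPowerSeriesAt.coeff_zero ![]]
    simp
  rwa [h3] at h2

/-- the Serre derivative of a level one form is a level one form -/
theorem IsLevelOne.serre {k : ℤ} {f : ℍ → ℂ} (hf : IsLevelOne k f) :
    IsLevelOne (k + 2) (serreDerivative k f) ∧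
      Tendsto (serreDerivative k f) atImInfty (𝓝 (- (k * 12⁻¹) * valueAtInfty f)) := by
  have h1 : Tendsto (serreDerivative k f) atImInfty (𝓝 (- (k * 12⁻¹) * valueAtInfty f)) := by
    have h2 := normalizedDeriv_tendsto_zero (by simpa using hf.periodic) hf.mdiff hf.bdd
    have h3 := h2.sub ((tendsto_E2.const_mul ((k : ℂ) * 12⁻¹)).mul hf.tendsto)
    rw [zero_sub, mul_one, ← neg_mul] at h3
    exact h3
  refine ⟨⟨serreDerivative_mdifferentiable _ hf.mdiff, h1.isBigO_one ℝ, fun γ ↦ ?_⟩, h1⟩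
  exact serreDerivative_slash_invariant hf.mdiff (hf.slash γ)

theorem serre_E₄ : serreDerivative (4 : ℤ) E₄ = (-(1 / 3 : ℂ)) • (E₆ : ℍ → ℂ) := by
  obtain ⟨h1, h2⟩ := isLevelOne_E₄.serre
  have h3 := (h1.sub (isLevelOne_E₆.smul (-(1 / 3 : ℂ))))
  have h4 : serreDerivative (4 : ℤ) E₄ - (-(1 / 3 : ℂ)) • (E₆ : ℍ → ℂ) = 0 := by
    refine h3.eq_zero_of_tendsto (Or.inl (by norm_num)) ?_
    have h5 := h2.sub (tendsto_E₆.const_smul (-(1 / 3 : ℂ)))
    rw [valueAtInfty_E _ ⟨2, rfl⟩] at h5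
    have h6 : (0 : ℂ) = -(((4 : ℤ) : ℂ) * 12⁻¹) * 1 - -(1 / 3 : ℂ) • (1:ℂ) := by
      push_cast; rw [smul_eq_mul]; norm_num
    rw [h6]
    exact h5
  exact sub_eq_zero.mp h4

theorem serre_E₆ : serreDerivative (6 : ℤ) E₆ = (-(1 / 2 : ℂ)) • ((E₄ : ℍ → ℂ) * E₄) := by
  obtain ⟨h1, h2⟩ := isLevelOne_E₆.serre
  have h3 := (h1.sub ((isLevelOne_E₄.mul isLevelOne_E₄).smul (-(1 / 2 : ℂ))))
  have h4 : serreDerivative (6 : ℤ) E₆ - (-(1 / 2 : ℂ)) • ((E₄ : ℍ → ℂ) * E₄) = 0 := by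
    refine h3.eq_zero_of_tendsto (Or.inl (by norm_num)) ?_
    have h5 := h2.sub ((tendsto_E₄.mul tendsto_E₄).const_smul (-(1 / 2 : ℂ)))
    rw [valueAtInfty_E _ ⟨3, rfl⟩] at h5
    have h6 : (0 : ℂ) = -(((6 : ℤ) : ℂ) * 12⁻¹) * 1 - -(1 / 2 : ℂ) • (1 * 1 : ℂ) := by
      push_cast; rw [smul_eq_mul]; norm_num
    rw [h6]
    exact h5
  exact sub_eq_zero.mp h4

end Fermat.Agent.LevelOne
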