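import Fermat.Agent.LevelOne.Ramanujan

/-!
# `(E₄, E₆)` separates `SL₂(ℤ)`-orbits on the upper half plane
-/

set_option autoImplicit false

open UpperHalfPlane ModularForm ModularFormClass MatrixGroups EisensteinSeries Filter
open scoped Manifold MatrixGroups ModularForm Topology

namespace Fermat.Agent.LevelOne

/-- the monomial `E₄^a E₆^b` of weight `2 l` (for `l ≠ 1`). -/
noncomputable def mon (l : ℕ) : ℍ → ℂ := (E₄ : ℍ → ℂ) ^ ((l - 3 * (l % 2)) / 2) * (E₆ : ℍ → ℂ) ^ (l % 2)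

theorem isLevelOne_mon {l : ℕ} (hl : l ≠ 1) : IsLevelOne (2 * l) (mon l) := by
  have := (isLevelOne_E₄.pow ((l - 3 * (l % 2)) / 2)).mul (isLevelOne_E₆.pow (l % 2))
  refine this.congr_weight ?_
  push_cast
  omega

theorem tendsto_mon (l : ℕ) : Tendsto (mon l) atImInfty (𝓝 1) := by
  have := (tendsto_E₄.pow ((l - 3 * (l % 2)) / 2)).mul (tendsto_E₆.pow (l % 2))
  rw [one_pow, one_pow, one_mul] at this
  exact this

/-- if `E₄` and `E₆` are proportional at `z, z'` then so are all level one forms. -/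
theorem eval_eq_of_E₄_E₆ {z z' : ℍ} {c : ℂ} (hc : c ≠ 0) (h4 : E₄ z = c ^ 4 * E₄ z')
    (h6 : E₆ z = c ^ 6 * E₆ z') {k : ℤ} {f : ℍ → ℂ} (hf : IsLevelOne k f) :
    f z = c ^ k * f z' := by
  rcases lt_or_ge k 0 with hk | hk
  · simp [hf.eq_zero_of_neg hk]
  lift k to ℕ using hk
  induction k using Nat.strong_induction_on generalizing f with | _ k ih =>
  rcases Nat.even_or_odd k with hk | hk
  swap
  · simp [hf.eq_zero_of_odd (by exact_mod_cast hk)]
  obtain ⟨l, rfl⟩ := hk
  rcases eq_or_ne l 1 with rfl | hl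
  · simp [IsLevelOne.eq_zero_of_two (hf.congr_weight (by norm_num))]
  have hmon : mon l z = c ^ ((l + l : ℕ) : ℤ) * mon l z' := by
    simp only [mon, Pi.mul_apply, Pi.pow_apply, h4, h6]
    rw [mul_pow, mul_pow, ← pow_mul, ← pow_mul, zpow_natCast]
    have : l + l = 4 * ((l - 3 * (l % 2)) / 2) + 6 * (l % 2) := by omega
    rw [this, pow_add]
    ring
  have hm : IsLevelOne ((l + l : ℕ) : ℤ) (mon l) :=
    (isLevelOne_mon hl).congr_weight (by push_cast; ring)
  set v := valueAtInfty f with hv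
  obtain ⟨g, hg, hg2⟩ := (hf.sub (hm.smul v)).exists_eq_Δ_mul (by
    have := hf.tendsto.sub ((tendsto_mon l).const_smul v)
    rw [← hv, smul_eq_mul, mul_one, sub_self] at this
    exact this)
  have hf2 : f = v • mon l + discriminant * g := by rw [← hg2]; ring
  have hΔ : discriminant z = c ^ 12 * discriminant z' := by
    rw [discriminant_eq_E₄_cube_sub_E₆_sq, discriminant_eq_E₄_cube_sub_E₆_sq, h4, h6]; ring
  have hgz : g z = c ^ (((l + l : ℕ) : ℤ) - 12) * g z' := by
    rcases lt_or_ge (l + l) 12 with h12 | h12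
    · simp [hg.eq_zero_of_neg (by omega)]
    · have e : ((l + l : ℕ) : ℤ) - 12 = ((l + l - 12 : ℕ) : ℤ) := by omega
      rw [e] at hg ⊢
      exact ih (l + l - 12) (by omega) hg
  rw [hf2]
  simp only [Pi.add_apply, Pi.smul_apply, Pi.mul_apply, hmon, hΔ, hgz, smul_eq_mul]
  have e2 : c ^ 12 * c ^ (((l + l : ℕ) : ℤ) - 12) = c ^ ((l + l : ℕ) : ℤ) := by
    rw [← zpow_natCast c 12, ← zpow_add₀ hc]; congr 1; push_cast; ring
  linear_combination (discriminant z' * g z') * e2

/-- the period pair `(c τ, c)` -/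
noncomputable def pair (c : ℂ) (hc : c ≠ 0) (τ : ℍ) : PeriodPair where
  ω₁ := c * τ
  ω₂ := c
  indep := by
    rw [LinearIndependent.pair_iff]
    intro s t h
    have h1 : (s : ℂ) * τ + t = 0 := by
      have : c * ((s : ℂ) * τ + t) = 0 := by
        simp only [Complex.real_smul] at h
        linear_combination h
      exact (mul_eq_zero.mp this).resolve_left hc
    have h2 := congrArg Complex.im h1
    simp [τ.im_pos.ne'] at h2
    subst h2
    simpa using h1

theorem G_pair {c : ℂ} (hc : c ≠ 0) (τ : ℍ) {k : ℕ} (hk : 3 ≤ k) :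
    (pair c hc τ).G k = (c ^ k)⁻¹ * (2 * riemannZeta k * E hk τ) := by
  have h1 : (pair c hc τ).G k = (c ^ k)⁻¹ * ∑' v : Fin 2 → ℤ, eisSummand k v τ := by
    rw [PeriodPair.G, ← (pair c hc τ).latticeEquivProd.symm.toEquiv.tsum_eq,
      ← (finTwoArrowEquiv ℤ).symm.tsum_eq, ← tsum_mul_left]
    refine tsum_congr fun x ↦ ?_
    have : ((pair c hc τ).latticeEquivProd.symm.toEquiv x : ℂ) = c * (x.1 * τ + x.2) := by
      have := (pair c hc τ).latticeEquiv_symm_apply x
      refine this.trans ?_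
      simp only [pair]
      ring
    rw [this]
    simp [eisSummand, mul_pow, zpow_neg, finTwoArrowEquiv]
    ring
  rw [h1, tsum_eisSummand_eq_riemannZeta_mul_eisensteinSeries hk]
  have : E hk τ = (1 / 2 : ℂ) • eisensteinSeries (N := 1) 0 k τ := rfl
  rw [this, smul_eq_mul]
  ring


open PeriodPair in
theorem lattice_le_of_G_eq (L L' : PeriodPair) (h : ∀ k : ℕ, 3 ≤ k → L.G k = L'.G k) :
    L.lattice ≤ L'.lattice := by
  have hP : L.weierstrassPExcept 0 =ᶠ[𝓝 0] L'.weierstrassPExcept 0 := by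
    have h1 := L.hasFPowerSeriesAt_weierstrassPExcept 0
    have h2 := L'.hasFPowerSeriesAt_weierstrassPExcept 0
    have e : (fun i : ℕ ↦ if i = 0 then L.weierstrassPExcept 0 0
          else (i + 1) * L.sumInvPow 0 (i + 2)) =
        (fun i : ℕ ↦ if i = 0 then L'.weierstrassPExcept 0 0
          else (i + 1) * L'.sumInvPow 0 (i + 2)) := by
      ext i
      split_ifs with hi
      · simp
      · rw [sumInvPow_zero, sumInvPow_zero, h _ (by omega)]
    rw [e] at h1
    filter_upwards [h1.eventually_hasSum, h2.eventually_hasSum] with z hz1 hz2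
    simpa using hz1.unique hz2
  have hP2 : ∀ᶠ z in 𝓝[≠] (0 : ℂ), L.weierstrassP z = L'.weierstrassP z := by
    filter_upwards [hP.filter_mono nhdsWithin_le_nhds] with z hz
    rw [← L.weierstrassPExcept_add 0, ← L'.weierstrassPExcept_add 0]
    simpa using hz
  have hopen : IsOpen ((L.lattice : Set ℂ) ∪ L'.lattice)ᶜ :=
    (L.isClosed_lattice.union L'.isClosed_lattice).isOpen_compl
  have hcl (L : PeriodPair) : (L.lattice : Set ℂ).Countable := by
    have : Countable L.lattice := L.latticeEquivProd.toEquiv.countable_iff.mpr inferInstance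
    exact Set.countable_coe_iff.mp this
  have hpre : IsPreconnected ((L.lattice : Set ℂ) ∪ L'.lattice)ᶜ :=
    (((hcl L).union (hcl L')).isConnected_compl_of_one_lt_rank (by simp)).isPreconnected
  have hnear (L : PeriodPair) (x : ℂ) : ∀ᶠ z in 𝓝[≠] x, z ∉ L.lattice := by
    have := L.compl_lattice_sdiff_singleton_mem_nhds x
    filter_upwards [mem_nhdsWithin_of_mem_nhds this, self_mem_nhdsWithin] with z hz hz2 hz3
    exact hz ⟨hz3, hz2⟩
  have heq : Set.EqOn L.weierstrassP L'.weierstrassP ((L.lattice : Set ℂ) ∪ L'.lattice)ᶜ := by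
    obtain ⟨z₀, hz₀, hz₁, hz₂⟩ := ((eventually_eventually_nhdsWithin.mpr hP2).and
      ((hnear L 0).and (hnear L' 0))).exists
    have hz₃ : z₀ ≠ 0 := by
      rintro rfl
      exact hz₁ (Submodule.zero_mem _)
    have hz₄ : ∀ᶠ z in 𝓝 z₀, L.weierstrassP z = L'.weierstrassP z := by
      rwa [isOpen_compl_singleton.nhdsWithin_eq hz₃] at hz₀
    exact AnalyticOnNhd.eqOn_of_preconnected_of_eventuallyEq
      (L.analyticOnNhd_weierstrassP.mono (Set.compl_subset_compl.mpr Set.subset_union_left))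
      (L'.analyticOnNhd_weierstrassP.mono (Set.compl_subset_compl.mpr Set.subset_union_right))
      hpre (by simp [hz₁, hz₂]) hz₄
  intro l hl
  by_contra hl'
  have h1 : L.weierstrassP =ᶠ[𝓝[≠] l] L'.weierstrassP := by
    filter_upwards [hnear L l, hnear L' l] with z hz1 hz2
    exact heq (by simp [hz1, hz2])
  have h2 := meromorphicOrderAt_congr h1
  rw [L.order_weierstrassP l hl] at h2
  have h3 : 0 ≤ meromorphicOrderAt L'.weierstrassP l :=
    (L'.analyticOnNhd_weierstrassP l hl').meromorphicOrderAt_nonneg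
  rw [← h2] at h3
  exact absurd h3 (by decide)


theorem mem_lattice_pair {c : ℂ} (hc : c ≠ 0) (τ : ℍ) (x : ℂ) :
    x ∈ (pair c hc τ).lattice ↔ ∃ m n : ℤ, x = c * (m * τ + n) := by
  rw [PeriodPair.mem_lattice]
  refine exists₂_congr fun m n ↦ ?_
  simp only [pair]
  constructor
  · rintro h; rw [← h]; ring
  · rintro rfl; ring

theorem int_relation {τ : ℍ} {a b : ℤ} (h : (a : ℂ) * τ + b = 0) : a = 0 ∧ b = 0 := by
  have h2 := congrArg Complex.im h
  simp [τ.im_pos.ne'] at h2
  subst h2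
  simpa using h

theorem exists_smul_of_lattice_eq {c : ℂ} (hc : c ≠ 0) {z z' : ℍ}
    (h1 : (pair 1 one_ne_zero z).lattice = (pair c hc z').lattice) :
    ∃ γ : SL(2, ℤ), z = γ • z' := by
  have m1 : (z : ℂ) ∈ (pair c hc z').lattice := by
    rw [← h1, mem_lattice_pair]; exact ⟨1, 0, by simp⟩
  have m2 : (1 : ℂ) ∈ (pair c hc z').lattice := by
    rw [← h1, mem_lattice_pair]; exact ⟨0, 1, by simp⟩
  have m3 : (c * z' : ℂ) ∈ (pair 1 one_ne_zero z).lattice := by
    rw [h1, mem_lattice_pair]; exact ⟨1, 0, by simp⟩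
  have m4 : (c : ℂ) ∈ (pair 1 one_ne_zero z).lattice := by
    rw [h1, mem_lattice_pair]; exact ⟨0, 1, by simp⟩
  obtain ⟨a, b, hab⟩ := (mem_lattice_pair _ _ _).mp m1
  obtain ⟨p, q, hpq⟩ := (mem_lattice_pair _ _ _).mp m2
  obtain ⟨a', b', hab'⟩ := (mem_lattice_pair _ _ _).mp m3
  obtain ⟨p', q', hpq'⟩ := (mem_lattice_pair _ _ _).mp m4
  rw [one_mul] at hab' hpq'
  -- the matrix product is the identity
  have r1 : a * a' + b * p' = 1 ∧ a * b' + b * q' = 0 := by
    have : ((a * a' + b * p' - 1 : ℤ) : ℂ) * z + ((a * b' + b * q' : ℤ) : ℂ) = 0 := by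
      push_cast
      linear_combination - a * hab' - b * hpq' - hab
    obtain ⟨h3, h4⟩ := int_relation this
    exact ⟨by linarith, h4⟩
  have r2 : p * a' + q * p' = 0 ∧ p * b' + q * q' = 1 := by
    have : ((p * a' + q * p' : ℤ) : ℂ) * z + ((p * b' + q * q' - 1 : ℤ) : ℂ) = 0 := by
      push_cast
      linear_combination - p * hab' - q * hpq' - hpq
    obtain ⟨h3, h4⟩ := int_relation this
    exact ⟨h3, by linarith⟩
  have hdet : (a * q - b * p) * (a' * q' - b' * p') = 1 := by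
    have : (a * q - b * p) * (a' * q' - b' * p') =
      (a * a' + b * p') * (p * b' + q * q') - (a * b' + b * q') * (p * a' + q * p') := by ring
    rw [this, r1.1, r1.2, r2.1, r2.2]; ring
  have hden : (p : ℂ) * z' + q ≠ 0 := by
    intro h; rw [h, mul_zero] at hpq; exact one_ne_zero hpq
  have hz : (z : ℂ) = (a * z' + b) / (p * z' + q) := by
    rw [eq_div_iff hden]
    linear_combination (p * z' + q) * hab + (- (a * z' + b)) * hpq
  have hpos : 0 < a * q - b * p := by
    have him : z.im = (a * q - b * p : ℝ) * z'.im / Complex.normSq (p * z' + q) := by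
      rw [← UpperHalfPlane.coe_im, hz, Complex.div_im]
      simp
      ring
    have h5 : 0 < Complex.normSq (p * z' + q) := Complex.normSq_pos.mpr hden
    have h6 : 0 < (a * q - b * p : ℝ) * z'.im := by
      have := z.im_pos
      rw [him] at this
      exact (div_pos_iff_of_pos_right h5).mp this
    have h7 := (mul_pos_iff_of_pos_right z'.im_pos).mp h6
    exact_mod_cast h7
  have hone : a * q - b * p = 1 := by
    rcases Int.eq_one_or_neg_one_of_mul_eq_one hdet with h | h
    · exact h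
    · omega
  let γ : SL(2, ℤ) := ⟨!![a, b; p, q], by rw [Matrix.det_fin_two_of]; exact hone⟩
  have g00 : γ 0 0 = a := rfl
  have g01 : γ 0 1 = b := rfl
  have g10 : γ 1 0 = p := rfl
  have g11 : γ 1 1 = q := rfl
  refine ⟨γ, ?_⟩
  apply UpperHalfPlane.ext
  rw [UpperHalfPlane.specialLinearGroup_apply, hz]
  simp [g00, g01, g10, g11]

/-- `(E₄, E₆)` up to weighted scaling separates `SL₂(ℤ)`-orbits. -/
theorem exists_smul_of_E₄_E₆ {z z' : ℍ} {c : ℂ} (hc : c ≠ 0) (h4 : E₄ z = c ^ 4 * E₄ z')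
    (h6 : E₆ z = c ^ 6 * E₆ z') : ∃ γ : SL(2, ℤ), z = γ • z' := by
  have hG : ∀ k : ℕ, 3 ≤ k →
      (pair 1 one_ne_zero z).G k = (pair c⁻¹ (inv_ne_zero hc) z').G k := by
    intro k hk
    rcases Nat.even_or_odd k with hk2 | hk2
    · rw [G_pair _ _ hk, G_pair _ _ hk, eval_eq_of_E₄_E₆ hc h4 h6 (isLevelOne_coe (E hk))]
      rw [one_pow, inv_one, one_mul, inv_pow, inv_inv, zpow_natCast]
      ring
    · rw [PeriodPair.G_eq_zero_of_odd _ _ hk2, PeriodPair.G_eq_zero_of_odd _ _ hk2]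
  exact exists_smul_of_lattice_eq (inv_ne_zero hc)
    (le_antisymm (lattice_le_of_G_eq _ _ hG) (lattice_le_of_G_eq _ _ fun k hk ↦ (hG k hk).symm))

theorem exists_smul_of_E₄_eq_zero {z z' : ℍ} (h : E₄ z = 0) (h' : E₄ z' = 0) :
    ∃ γ : SL(2, ℤ), z = γ • z' := by
  have n1 : E₆ z ≠ 0 := by
    intro h6
    have := discriminant_eq_E₄_cube_sub_E₆_sq z
    rw [h, h6] at this
    exact discriminant_ne_zero z (by rw [this]; norm_num)
  have n2 : E₆ z' ≠ 0 := by
    intro h6
    have := discriminant_eq_E₄_cube_sub_E₆_sq z'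
    rw [h', h6] at this
    exact discriminant_ne_zero z' (by rw [this]; norm_num)
  obtain ⟨c, hc⟩ := IsAlgClosed.exists_pow_nat_eq (E₆ z / E₆ z') (n := 6) (by norm_num)
  have hc0 : c ≠ 0 := by
    rintro rfl
    rw [zero_pow (by norm_num)] at hc
    exact (div_ne_zero n1 n2) hc.symm
  refine exists_smul_of_E₄_E₆ hc0 (by rw [h, h', mul_zero]) ?_
  rw [hc, div_mul_cancel₀ _ n2]

theorem exists_smul_of_E₆_eq_zero {z z' : ℍ} (h : E₆ z = 0) (h' : E₆ z' = 0) :
    ∃ γ : SL(2, ℤ), z = γ • z' := by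
  have n1 : E₄ z ≠ 0 := by
    intro h6
    have := discriminant_eq_E₄_cube_sub_E₆_sq z
    rw [h, h6] at this
    exact discriminant_ne_zero z (by rw [this]; norm_num)
  have n2 : E₄ z' ≠ 0 := by
    intro h6
    have := discriminant_eq_E₄_cube_sub_E₆_sq z'
    rw [h', h6] at this
    exact discriminant_ne_zero z' (by rw [this]; norm_num)
  obtain ⟨c, hc⟩ := IsAlgClosed.exists_pow_nat_eq (E₄ z / E₄ z') (n := 4) (by norm_num)
  have hc0 : c ≠ 0 := by
    rintro rfl
    rw [zero_pow (by norm_num)] at hc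
    exact (div_ne_zero n1 n2) hc.symm
  refine exists_smul_of_E₄_E₆ hc0 ?_ (by rw [h, h', mul_zero])
  rw [hc, div_mul_cancel₀ _ n2]

/-- injectivity of the `j`-function, away from the elliptic points: if
`E₄(z)³ Δ(z') = E₄(z')³ Δ(z)`, then `z` and `z'` are equivalent. -/
theorem exists_smul_of_j_eq {z z' : ℍ}
    (h : E₄ z ^ 3 * discriminant z' = E₄ z' ^ 3 * discriminant z) :
    ∃ γ : SL(2, ℤ), z = γ • z' := by
  have d1 := discriminant_ne_zero z
  have d2 := discriminant_ne_zero z'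
  have e1 := discriminant_eq_E₄_cube_sub_E₆_sq z
  have e2 := discriminant_eq_E₄_cube_sub_E₆_sq z'
  by_cases h4 : E₄ z' = 0
  · have : E₄ z = 0 := by
      rw [h4, zero_pow (by norm_num), zero_mul] at h
      exact pow_eq_zero_iff (by norm_num) |>.mp ((mul_eq_zero.mp h).resolve_right d2)
    exact exists_smul_of_E₄_eq_zero this h4
  have h4' : E₄ z ≠ 0 := by
    intro h0
    rw [h0, zero_pow (by norm_num), zero_mul] at h
    exact (mul_ne_zero (pow_ne_zero 3 h4) d1) h.symm
  have h6e : E₆ z ^ 2 * discriminant z' = E₆ z' ^ 2 * discriminant z := by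
    have a1 : E₆ z ^ 2 = E₄ z ^ 3 - 1728 * discriminant z := by rw [e1]; ring
    have a2 : E₆ z' ^ 2 = E₄ z' ^ 3 - 1728 * discriminant z' := by rw [e2]; ring
    rw [a1, a2]; linear_combination h
  by_cases h6 : E₆ z' = 0
  · have : E₆ z = 0 := by
      rw [h6, zero_pow (by norm_num), zero_mul] at h6e
      exact pow_eq_zero_iff (by norm_num) |>.mp ((mul_eq_zero.mp h6e).resolve_right d2)
    exact exists_smul_of_E₆_eq_zero this h6
  have h6' : E₆ z ≠ 0 := by
    intro h0
    rw [h0, zero_pow (by norm_num), zero_mul] at h6e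
    exact (mul_ne_zero (pow_ne_zero 2 h6) d1) h6e.symm
  set A4 := E₄ z / E₄ z' with hA4
  set A6 := E₆ z / E₆ z' with hA6
  have n4 : A4 ≠ 0 := div_ne_zero h4' h4
  have n6 : A6 ≠ 0 := div_ne_zero h6' h6
  have key : A4 ^ 3 = A6 ^ 2 := by
    rw [hA4, hA6, div_pow, div_pow, div_eq_div_iff (pow_ne_zero _ h4) (pow_ne_zero _ h6)]
    have : (E₄ z ^ 3 * E₆ z' ^ 2 - E₆ z ^ 2 * E₄ z' ^ 3) * (discriminant z * discriminant z') = 0 := by
      linear_combination (E₆ z' ^ 2 * discriminant z) * h - (E₄ z' ^ 3 * discriminant z) * h6e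
    have := (mul_eq_zero.mp this).resolve_right (mul_ne_zero d1 d2)
    linear_combination this
  obtain ⟨c, hc⟩ := IsAlgClosed.exists_pow_nat_eq (A6 / A4) (n := 2) (by norm_num)
  have hc0 : c ≠ 0 := by
    rintro rfl
    rw [zero_pow (by norm_num)] at hc
    exact (div_ne_zero n6 n4) hc.symm
  have c4 : c ^ 4 = A4 := by
    rw [show c ^ 4 = (c ^ 2) ^ 2 by ring, hc, div_pow, ← key]
    field_simp
  have c6 : c ^ 6 = A6 := by
    rw [show c ^ 6 = c ^ 4 * c ^ 2 by ring, c4, hc]
    field_simp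
  refine exists_smul_of_E₄_E₆ hc0 ?_ ?_
  · rw [c4, hA4, div_mul_cancel₀ _ h4]
  · rw [c6, hA6, div_mul_cancel₀ _ h6]

end Fermat.Agent.LevelOne
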